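import Fermat.Agent.S59.H126.Count
import Fermat.Agent.S59.H659.Basic
import Fermat.Agent.S56.H186.TameQbar
import Fermat.Agent.S30.H870.Cyclo
import Fermat.Agent.S59.H540.DetCong

/-!
# S59 / NM-SEL (helper126): the inertia ideal at an auxiliary prime `q`

`r : G_ℚ → GL₂(R)` a continuous matrix representation over a Noetherian local `𝒪`-algebra `R`
with cyclotomic determinant, `x : R → 𝒪` an augmentation with kernel `I`, `q ≠ p` a prime such
that `r ≡ 1` modulo `I` on the inertia group `I_P` at a place `P ∣ q`, `φ` a Frobenius at `P`.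

`inertiaIdeal r P` is the ideal generated by the entries of `r τ - 1`, `τ ∈ I_P`.

`inertia_count` : the image of `inertiaIdeal r P` in `I / I²` has at most `#(𝒪/c)` elements,
`c = (q - 1)((tr x(r φ))² - (q + 1)²)` (in the form: every finite subset of the inertia ideal
which is injective modulo `I²` has at most `#(𝒪/c)` elements).

Proof: at every finite level `R ⧸ (I² + 𝔪ᵏ)` the image of inertia is a `p`-group, hence cyclic,
generated by some `r τ₀`, and `r φ · r τ₀ = (r τ₀)^q · r φ` (tame inertia, `S56.H186`);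
then `Count.count_level`; finally Krull's intersection theorem.
-/

set_option autoImplicit false
set_option linter.unusedSectionVars false
set_option linter.style.haveILetI false

open IsLocalRing

namespace Fermat.Agent.S59.H126

open Fermat.Agent.S53

/-- The ideal generated by the entries of `r τ - 1`, `τ` in the inertia group at `P`. -/
def inertiaIdeal {R : Type} [CommRing R] (r : GQ →* M2 R)
    (P : ValuationSubring (AlgebraicClosure ℚ)) : Ideal R :=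
  Ideal.span {e | ∃ τ ∈ P.inertiaSubgroupIn ℚ, ∃ i j : Fin 2, e = (r τ - 1) i j}

theorem entry_mem_inertiaIdeal {R : Type} [CommRing R] (r : GQ →* M2 R)
    (P : ValuationSubring (AlgebraicClosure ℚ)) {τ : GQ} (hτ : τ ∈ P.inertiaSubgroupIn ℚ)
    (i j : Fin 2) : (r τ - 1) i j ∈ inertiaIdeal r P :=
  Ideal.subset_span ⟨τ, hτ, i, j, rfl⟩

section DetCyc

variable {p : ℕ} [Fact p.Prime] {R : Type} [CommRing R] [IsLocalRing R] [IsNoetherianRing R]

/-- The determinant of a representation with cyclotomic determinant, at an element acting on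
all `p`-power roots of unity by `μ ↦ μ ^ a`. -/
theorem det_eq_natCast_of_detIsCyclotomic (r : GQ →* M2 R) (hr : MatCont r)
    (hdet : (toAdic r hr).DetIsCyclotomic p) (σ : GQ) (a : ℕ)
    (h : ∀ (n : ℕ) (μ : AlgebraicClosure ℚ), μ ^ p ^ n = 1 → σ μ = μ ^ a) :
    (r σ).det = (a : R) := by
  have hp := hdet.1
  have h1 : ∀ n, (r σ).det - a ∈ maximalIdeal R ^ n := by
    intro n
    have h2 := hdet.2 n σ a (h n)
    rw [Fermat.Agent.S59.H659.det_toAdic] at h2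
    have h3 : Ideal.span {((p ^ n : ℕ) : R)} ≤ maximalIdeal R ^ n := by
      rw [Ideal.span_singleton_le_iff_mem, Nat.cast_pow]
      exact Ideal.pow_mem_pow hp n
    exact h3 h2
  have h3 : (r σ).det - a ∈ (⊥ : Ideal R) := by
    apply Fermat.Agent.S59.H540.mem_of_forall_mem_sup_pow
    intro k
    exact Ideal.mem_sup_right (h1 k)
  rwa [Ideal.mem_bot, sub_eq_zero] at h3

theorem det_inertia_eq_one (r : GQ →* M2 R) (hr : MatCont r)
    (hdet : (toAdic r hr).DetIsCyclotomic p) {q : ℕ} (hq : q.Prime) (hqp : q ≠ p)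
    (P : ValuationSubring (AlgebraicClosure ℚ)) (hP : P.LiesOverPrime q)
    {τ : GQ} (hτ : τ ∈ P.inertiaSubgroupIn ℚ) : (r τ).det = 1 := by
  have h := det_eq_natCast_of_detIsCyclotomic r hr hdet τ 1 (fun n μ hμ => by
    rw [pow_one]
    exact Fermat.Agent.S30.H870.inertia_root_eq p hq hqp P hP τ hτ hμ)
  rwa [Nat.cast_one] at h

theorem det_frobenius_eq (r : GQ →* M2 R) (hr : MatCont r)
    (hdet : (toAdic r hr).DetIsCyclotomic p) {q : ℕ} (hq : q.Prime) (hqp : q ≠ p)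
    (P : ValuationSubring (AlgebraicClosure ℚ)) (hP : P.LiesOverPrime q)
    {φ : GQ} (hφ : P.IsFrobeniusAt φ q) : (r φ).det = (q : R) :=
  det_eq_natCast_of_detIsCyclotomic r hr hdet φ q (fun _ _ hμ =>
    Fermat.Agent.S30.H870.frob_root_pow_eq p hq hqp P hP φ hφ hμ)

end DetCyc

section Level

variable {R : Type} [CommRing R] {A : Type} [CommRing A]

theorem mapRep_eq_one_add (f : R →+* A) (r : GQ →* M2 R) (σ : GQ) :
    mapRep f r σ = 1 + (r σ - 1).map f := by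
  ext i j
  rw [mapRep_apply, Matrix.add_apply, Matrix.map_apply, Matrix.map_apply, Matrix.sub_apply,
    map_sub]
  by_cases hij : i = j
  · subst hij
    rw [Matrix.one_apply_eq, Matrix.one_apply_eq, map_one]
    ring
  · rw [Matrix.one_apply_ne hij, Matrix.one_apply_ne hij, map_zero]
    ring

theorem mapRep_eq_one_of_mem_ker (f : R →+* A) (r : GQ →* M2 R) (σ : GQ)
    (h : ∀ i j, (r σ - 1) i j ∈ RingHom.ker f) : mapRep f r σ = 1 := by
  rw [mapRep_eq_one_add]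
  have : (r σ - 1).map f = 0 := by
    ext i j
    rw [Matrix.map_apply, Matrix.zero_apply]
    exact h i j
  rw [this, add_zero]

end Level

section Main

variable {p : ℕ} [Fact p.Prime]
  {𝒪 : Type} [CommRing 𝒪] [IsDomain 𝒪] [IsDiscreteValuationRing 𝒪]
  {R : Type} [CommRing R] [IsLocalRing R] [IsNoetherianRing R] [Algebra 𝒪 R]

/-- **The count.**  Every finite subset of the inertia ideal which is injective modulo `I²` has
at most `#(𝒪/c)` elements. -/
theorem inertia_count {q : ℕ} (hq : q.Prime) (hqp : q ≠ p) (hqu : IsUnit (q : 𝒪))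
    (x : R →ₐ[𝒪] 𝒪) (r : GQ →* M2 R) (hr : MatCont r)
    (hdet : (toAdic r hr).DetIsCyclotomic p)
    (P : ValuationSubring (AlgebraicClosure ℚ)) (hP : P.LiesOverPrime q)
    (φ : GQ) (hφ : P.IsFrobeniusAt φ q)
    (hI : ∀ τ ∈ P.inertiaSubgroupIn ℚ, ∀ i j, (r τ - 1) i j ∈ RingHom.ker (x : R →+* 𝒪))
    (hc : ((q : 𝒪) - 1) * (x (r φ).trace ^ 2 - ((q : 𝒪) + 1) ^ 2) ≠ 0)
    (hfin : Finite (𝒪 ⧸ Ideal.span {((q : 𝒪) - 1) * (x (r φ).trace ^ 2 - ((q : 𝒪) + 1) ^ 2)}))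
    (s : Finset R) (hs : ∀ y ∈ s, y ∈ inertiaIdeal r P)
    (hinj : ∀ y ∈ s, ∀ y' ∈ s, y - y' ∈ (RingHom.ker (x : R →+* 𝒪)) ^ 2 → y = y') :
    s.card ≤ Nat.card
      (𝒪 ⧸ Ideal.span {((q : 𝒪) - 1) * (x (r φ).trace ^ 2 - ((q : 𝒪) + 1) ^ 2)}) := by
  classical
  have hpp : p.Prime := Fact.out
  set I : Ideal R := RingHom.ker (x : R →+* 𝒪) with hIdef
  -- choice of the level
  have hkr : ∀ pr : R × R, ∃ k : ℕ,
      pr.1 - pr.2 ∈ I ^ 2 ⊔ maximalIdeal R ^ k → pr.1 - pr.2 ∈ I ^ 2 := by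
    intro pr
    by_cases h : pr.1 - pr.2 ∈ I ^ 2
    · exact ⟨0, fun _ => h⟩
    · by_contra hne
      push Not at hne
      exact h (Fermat.Agent.S59.H540.mem_of_forall_mem_sup_pow (I ^ 2) _ fun k => (hne k).1)
  choose kf hkf using hkr
  set k : ℕ := (s ×ˢ s).sup kf with hk
  have hkle : ∀ y ∈ s, ∀ y' ∈ s, kf (y, y') ≤ k := fun y hy y' hy' =>
    Finset.le_sup (f := kf) (Finset.mem_product.mpr ⟨hy, hy'⟩)
  set 𝔞 : Ideal R := I ^ 2 ⊔ maximalIdeal R ^ k with h𝔞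
  have hsep : ∀ y ∈ s, ∀ y' ∈ s, y - y' ∈ 𝔞 → y = y' := by
    intro y hy y' hy' h
    apply hinj y hy y' hy'
    apply hkf (y, y')
    have hmono : 𝔞 ≤ I ^ 2 ⊔ maximalIdeal R ^ kf (y, y') :=
      sup_le_sup_left (Ideal.pow_le_pow_right (hkle y hy y' hy')) _
    exact hmono h
  -- the finite level
  let mk : R →+* R ⧸ 𝔞 := Ideal.Quotient.mk 𝔞
  have hmk : ∀ a : R, mk a = 0 ↔ a ∈ 𝔞 := fun a => Ideal.Quotient.eq_zero_iff_mem
  have hmksurj : Function.Surjective mk := Ideal.Quotient.mk_surjective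
  have halg : ∀ o : 𝒪, algebraMap 𝒪 (R ⧸ 𝔞) o = mk (algebraMap 𝒪 R o) := fun o => rfl
  set Ibar : Ideal (R ⧸ 𝔞) := I.map mk with hIbar
  have hsq : ∀ a ∈ Ibar, ∀ b ∈ Ibar, a * b = 0 := by
    intro a ha b hb
    obtain ⟨a', ha', rfl⟩ := (Ideal.mem_map_iff_of_surjective mk hmksurj).mp ha
    obtain ⟨b', hb', rfl⟩ := (Ideal.mem_map_iff_of_surjective mk hmksurj).mp hb
    rw [← map_mul, hmk]
    refine Ideal.mem_sup_left ?_
    rw [pow_two]
    exact Ideal.mul_mem_mul ha' hb'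
  have hxmem : ∀ a : R, a - algebraMap 𝒪 R (x a) ∈ I := by
    intro a
    rw [hIdef, RingHom.mem_ker, map_sub]
    show x a - x (algebraMap 𝒪 R (x a)) = 0
    rw [x.commutes, Algebra.algebraMap_self_apply, sub_self]
  have hdec : ∀ a : R ⧸ 𝔞, ∃ o : 𝒪, a - algebraMap 𝒪 (R ⧸ 𝔞) o ∈ Ibar := by
    intro a
    obtain ⟨a', rfl⟩ := hmksurj a
    refine ⟨x a', ?_⟩
    rw [halg, ← map_sub]
    exact Ideal.mem_map_of_mem mk (hxmem a')
  let π : GQ →* M2 (R ⧸ 𝔞) := mapRep mk r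
  have hπ : ∀ σ, π σ = 1 + (r σ - 1).map mk := fun σ => mapRep_eq_one_add mk r σ
  -- finite level
  have hlevel : ∃ E : IntermediateField ℚ (AlgebraicClosure ℚ), FiniteDimensional ℚ E ∧
      ∀ σ : AlgebraicClosure ℚ ≃ₐ[ℚ] AlgebraicClosure ℚ, (∀ x ∈ E, σ x = x) → π σ = 1 := by
    obtain ⟨L, hL, h⟩ := hr k
    refine ⟨L, hL, fun σ hσ => ?_⟩
    apply mapRep_eq_one_of_mem_ker
    intro i j
    rw [RingHom.mem_ker]
    exact (hmk _).mpr (Ideal.mem_sup_right (h σ hσ i j))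
  -- entries on inertia
  have hNI : ∀ τ ∈ P.inertiaSubgroupIn ℚ, ∀ i j, ((r τ - 1).map mk) i j ∈ Ibar := by
    intro τ hτ i j
    rw [Matrix.map_apply]
    exact Ideal.mem_map_of_mem mk (hI τ hτ i j)
  have hNN : ∀ τ ∈ P.inertiaSubgroupIn ℚ, (r τ - 1).map mk * (r τ - 1).map mk = 0 := by
    intro τ hτ
    ext i j
    rw [Matrix.mul_apply, Matrix.zero_apply]
    exact Finset.sum_eq_zero fun l _ => hsq _ (hNI τ hτ i l) _ (hNI τ hτ l j)
  have hπpow : ∀ τ ∈ P.inertiaSubgroupIn ℚ, ∀ m : ℕ, π τ ^ m = 1 + m • (r τ - 1).map mk := by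
    intro τ hτ m
    rw [hπ]
    exact one_add_pow_of_mul_self_eq_zero _ (hNN τ hτ) m
  have hpk : ((p ^ k : ℕ) : R ⧸ 𝔞) = 0 := by
    have : ((p ^ k : ℕ) : R ⧸ 𝔞) = mk ((p : R) ^ k) := by
      rw [map_pow, map_natCast, Nat.cast_pow]
    rw [this, hmk]
    exact Ideal.mem_sup_right (Ideal.pow_mem_pow hdet.1 k)
  have htors : ∀ σ ∈ P.inertiaSubgroupIn ℚ, ∃ a : ℕ, π σ ^ (p ^ a) = 1 := by
    intro τ hτ
    refine ⟨k, ?_⟩
    rw [hπpow τ hτ, ← Nat.cast_smul_eq_nsmul (R ⧸ 𝔞), hpk, zero_smul, add_zero]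
  have hcop : Nat.Coprime p q := (Nat.coprime_primes hpp hq).mpr (Ne.symm hqp)
  obtain ⟨τ₀, hτ₀, hgen⟩ := Fermat.Agent.S56.H186.tame_cyclic P π hP hq hlevel hcop htors
  have hfrob := Fermat.Agent.S56.H186.tame_frobenius P π hP hq hlevel hcop htors hφ hτ₀
  set N₀ : M2 (R ⧸ 𝔞) := (r τ₀ - 1).map mk with hN₀def
  have hπτ₀ : π τ₀ = 1 + N₀ := hπ τ₀
  have hrel : π φ * (1 + N₀) = (1 + N₀) ^ q * π φ := by
    rw [← hπτ₀, ← hfrob, ← map_mul, ← map_mul]
    congr 1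
    group
  -- determinants
  have hdetN : (1 + N₀).det = 1 := by
    rw [← hπτ₀]
    show ((r τ₀).map mk).det = 1
    have h1 : ((r τ₀).map mk).det = mk (r τ₀).det := by
      rw [RingHom.map_det]
      rfl
    rw [h1, det_inertia_eq_one r hr hdet hq hqp P hP hτ₀, map_one]
  set F₀ : M2 𝒪 := (r φ).map x with hF₀
  have hdetF : F₀.det = (q : 𝒪) := by
    have h1 : F₀.det = x (r φ).det := (RingHom.map_det (x : R →+* 𝒪) (r φ)).symm
    rw [h1, det_frobenius_eq r hr hdet hq hqp P hP hφ, map_natCast]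
  have htrF : F₀.trace = x (r φ).trace := by
    rw [hF₀, Matrix.trace_fin_two, Matrix.trace_fin_two, map_add]
    rfl
  have hΦ : ∀ i j, π φ i j - algebraMap 𝒪 (R ⧸ 𝔞) (F₀ i j) ∈ Ibar := by
    intro i j
    rw [halg]
    show mk (r φ i j) - mk (algebraMap 𝒪 R (x (r φ i j))) ∈ Ibar
    rw [← map_sub]
    exact Ideal.mem_map_of_mem mk (hxmem _)
  -- generators
  set G : Set (R ⧸ 𝔞) :=
    {g | ∃ τ ∈ P.inertiaSubgroupIn ℚ, ∃ i j : Fin 2, g = mk ((r τ - 1) i j)} with hGdef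
  have hG : ∀ g ∈ G, ∃ (m : ℕ) (i j : Fin 2), g = m • N₀ i j := by
    rintro g ⟨τ, hτ, i, j, rfl⟩
    obtain ⟨m, hm⟩ := hgen τ hτ
    refine ⟨m, i, j, ?_⟩
    have h1 : (r τ - 1).map mk = m • N₀ := by
      have h2 : 1 + (r τ - 1).map mk = 1 + m • N₀ := by
        rw [← hπ τ, hm, hπpow τ₀ hτ₀]
      exact add_left_cancel h2
    have h3 := congrFun (congrFun h1 i) j
    rw [Matrix.map_apply] at h3
    rw [h3, Matrix.smul_apply]
  -- the determinant of the relation matrix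
  have hdetB : (sl2Mat F₀ ((q : 𝒪) ^ 2)).det =
      (q : 𝒪) ^ 3 * (((q : 𝒪) - 1) * (x (r φ).trace ^ 2 - ((q : 𝒪) + 1) ^ 2)) := by
    rw [det_sl2Mat_of_det F₀ (q : 𝒪) hdetF, htrF]
  have hspan : Ideal.span {(sl2Mat F₀ ((q : 𝒪) ^ 2)).det} =
      Ideal.span {((q : 𝒪) - 1) * (x (r φ).trace ^ 2 - ((q : 𝒪) + 1) ^ 2)} := by
    rw [hdetB, Ideal.span_singleton_eq_span_singleton]
    exact (associated_unit_mul_left _ _ (hqu.pow 3)).symm.symm
  have hcB : (sl2Mat F₀ ((q : 𝒪) ^ 2)).det ≠ 0 := by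
    rw [hdetB]
    exact mul_ne_zero (pow_ne_zero 3 hqu.ne_zero) hc
  haveI : Finite (𝒪 ⧸ Ideal.span {(sl2Mat F₀ ((q : 𝒪) ^ 2)).det}) := by
    rw [hspan]
    exact hfin
  -- the image of `s`
  have hsimg : ∀ y ∈ s.image mk, y ∈ Ideal.span G := by
    intro y hy
    obtain ⟨y', hy', rfl⟩ := Finset.mem_image.mp hy
    have h1 : mk y' ∈ (inertiaIdeal r P).map mk := Ideal.mem_map_of_mem mk (hs y' hy')
    rw [inertiaIdeal, Ideal.map_span] at h1
    refine Ideal.span_mono ?_ h1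
    rintro _ ⟨e, ⟨τ, hτ, i, j, rfl⟩, rfl⟩
    exact ⟨τ, hτ, i, j, rfl⟩
  have hcount := count_level (𝒪 := 𝒪) Ibar hsq hdec (π φ) N₀ F₀ hΦ (hNI τ₀ hτ₀) q hrel hdetN hdetF
    G hG hcB (s.image mk) hsimg
  have hcard : (s.image mk).card = s.card := by
    apply Finset.card_image_of_injOn
    intro y hy y' hy' hyy'
    apply hsep y hy y' hy'
    rw [← hmk, map_sub, sub_eq_zero]
    exact hyy'
  rw [hcard, hspan] at hcount
  exact hcount

end Main

end Fermat.Agent.S59.H126
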