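import Fermat.Agent.S59.H126.NMSel
import Fermat.Agent.S59.NM.Spec

/-!
# S59 / cell NM, leaf NM-SEL in the shape of `NM/Spec.lean` (helper126)

`sel : Fermat.Agent.S59.NM.SelStatement`, from `nmSel : NMSelStatement`:

* `q ≠ p` since `p ∈ Smin ⊆ Σ` and `q ∉ Σ`;
* the classifying map `ψ : R_{Σ ∪ q} → R_Σ` of `D.ρ` exists by the universal property of `D'`
  (the condition `sigmaCond` is monotone in `Σ`);
* `x' = x ∘ ψ` by the uniqueness part of the universal property of `D'` at `A = 𝒪`;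
* `x (tr D.ρ(σ)) = a_q` for a Frobenius `σ` at `q`, from the characteristic polynomial.
-/

set_option autoImplicit false
set_option linter.unusedSectionVars false
set_option linter.unusedVariables false
set_option linter.style.haveILetI false

open IsLocalRing Polynomial

namespace Fermat.Agent.S59.H126

open Fermat.Agent.S53 Fermat.Agent.S53.H113
open Fermat.Agent.S59.Arch (PType pCond sigmaCond ResidualHyp)

section Mono

variable {𝒪 : Type} [CommRing 𝒪]
  {A : Type} [CommRing A] [IsLocalRing A] [Algebra 𝒪 A]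
  {p : ℕ} {t : PType} {Smin Sig Sig' : Finset ℕ}

theorem pCond_mono126 (hSig : Sig ⊆ Sig') {ρ : GaloisRepAdic A} (hρ : pCond 𝒪 p t Sig ρ) :
    pCond 𝒪 p t Sig' ρ := by
  cases t with
  | flat => exact ⟨hρ.1, hρ.2.1, fun q hq hqS => hρ.2.2 q hq (fun h => hqS (hSig h))⟩
  | sord => exact ⟨hρ.1, hρ.2.1, fun q hq hqS => hρ.2.2 q hq (fun h => hqS (hSig h))⟩
  | ord => exact ⟨hρ.1, hρ.2.1, fun q hq hqS => hρ.2.2 q hq (fun h => hqS (hSig h))⟩

theorem sigmaCond_mono126 (hSig : Sig ⊆ Sig') {ρ : GaloisRepAdic A}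
    (hρ : sigmaCond 𝒪 p t Smin Sig ρ) : sigmaCond 𝒪 p t Smin Sig' ρ :=
  ⟨pCond_mono126 hSig hρ.1, hρ.2⟩

end Mono

section TraceBC

variable {A : Type} [CommRing A] [IsLocalRing A] {B : Type} [CommRing B] [IsLocalRing B]

/-- The trace of a push-forward. -/
theorem trace_baseChangeAlong126 (f : A →+* B) (hf : IsLocalHom f) (ρ : GaloisRepAdic A)
    (σ : GQ) : (ρ.baseChangeAlong f hf).trace σ = f (ρ.trace σ) := by
  obtain ⟨r, hr, he⟩ := exists_toAdic ρ
  have e1 := Fermat.Agent.S59.H659.baseChangeAlong_isEquiv_toAdic f hf ρ r hr he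
  rw [trace_eq_of_isEquiv e1 σ, trace_eq_of_isEquiv he σ, trace_toAdic, trace_toAdic,
    Matrix.trace_fin_two, Matrix.trace_fin_two, map_add]
  rfl

/-- The trace is read off from the characteristic polynomial. -/
theorem trace_eq_of_charpoly126 (ρ : GaloisRepAdic A) (σ : GQ) (a b : A)
    (h : LinearMap.charpoly (ρ.ρ σ) = X ^ 2 - C a * X + C b) : ρ.trace σ = a := by
  obtain ⟨r, hr, he⟩ := exists_toAdic ρ
  have h1 : LinearMap.charpoly (ρ.ρ σ) = (r σ).charpoly := by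
    obtain ⟨e⟩ := he
    have h2 : (toAdic r hr).ρ σ = e.toLinearEquiv.conj (ρ.ρ σ) := by
      apply LinearMap.ext
      intro v
      rw [LinearEquiv.conj_apply, LinearMap.comp_apply, LinearMap.comp_apply,
        LinearEquiv.coe_coe, LinearEquiv.coe_coe, e.map_apply, LinearEquiv.apply_symm_apply]
    rw [← Fermat.Agent.S59.H659.charpoly_toAdic r hr σ, h2, LinearEquiv.charpoly_conj]
  rw [trace_eq_of_isEquiv he σ, trace_toAdic]
  rw [h1, Matrix.charpoly_fin_two] at h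
  have h3 := congrArg (fun P : A[X] => P.coeff 1) h
  simp only [coeff_add, coeff_sub, coeff_C_mul, coeff_X_pow, coeff_X_one, coeff_C] at h3
  simpa using h3

end TraceBC

/-- **NM-SEL**, in the shape of the frozen interface of cell NM. -/
theorem sel : Fermat.Agent.S59.NM.SelStatement := by
  intro p _ 𝒪 _ _ _ _ _ _ ρbar Smin h t ht Sig hSig hSigP q hq hqS D D' x x' hx hx' hxx' aq haq
    hc hfin
  have hqp : q ≠ p := fun e => hqS (hSig (e ▸ h.hpSmin))
  -- the classifying map of `D.ρ`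
  have hD : sigmaCond 𝒪 p t Smin (insert q Sig) D.ρ :=
    sigmaCond_mono126 (Finset.subset_insert q Sig) D.isOfType
  obtain ⟨ψ, ⟨hψ, hψρ⟩, -⟩ := D'.universal D.R D.residue_surjective D.ρ hD D.residual_isEquiv
  -- the two augmentations of `D'.R` agree
  have hxsurj : Function.Surjective (x : D.R →+* 𝒪) := fun o =>
    ⟨algebraMap 𝒪 D.R o, x.commutes o⟩
  haveI : IsLocalHom (algebraMap 𝒪 𝒪) := ⟨fun a ha => ha⟩
  have hres𝒪 : Function.Surjective (IsLocalRing.residue 𝒪 ∘ algebraMap 𝒪 𝒪) :=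
    IsLocalRing.residue_surjective
  have hcond : sigmaCond 𝒪 p t Smin (insert q Sig) (D.ρ.baseChangeAlong (x : D.R →+* 𝒪) hx) :=
    sigmaCond_baseChangeAlong (x : D.R →+* 𝒪) hx hxsurj hD
  have hresid := residual_isEquiv_baseChangeAlong ρbar D.ρ D.residual_isEquiv x hx
  obtain ⟨φ0, -, huniq⟩ := D'.universal 𝒪 hres𝒪 (D.ρ.baseChangeAlong (x : D.R →+* 𝒪) hx)
    hcond hresid
  have hcomp : IsLocalHom ((x.comp ψ : D'.R →ₐ[𝒪] 𝒪) : D'.R →+* 𝒪) :=
    isLocalHom_algHom inferInstance hres𝒪 (x.comp ψ)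
  have hcompρ : (D'.ρ.baseChangeAlong ((x.comp ψ : D'.R →ₐ[𝒪] 𝒪) : D'.R →+* 𝒪) hcomp).IsEquiv
      (D.ρ.baseChangeAlong (x : D.R →+* 𝒪) hx) :=
    isEquiv_trans
      (isEquiv_symm (baseChangeAlong_comp_isEquiv' (ψ : D'.R →+* D.R) hψ (x : D.R →+* 𝒪) hx
        ((x.comp ψ : D'.R →ₐ[𝒪] 𝒪) : D'.R →+* 𝒪) hcomp rfl D'.ρ))
      (isEquiv_baseChangeAlong (x : D.R →+* 𝒪) hx hψρ)
  have hx'eq : x' = x.comp ψ :=
    (huniq x' ⟨hx', hxx'⟩).trans (huniq (x.comp ψ) ⟨hcomp, hcompρ⟩).symm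
  -- a Frobenius at `q`
  obtain ⟨P, σ, hP, hσ⟩ := Fermat.Agent.S54.exists_frobenius q hq
  have htr : x (D.ρ.trace σ) = aq := by
    have h1 := trace_eq_of_charpoly126 (D.ρ.baseChangeAlong (x : D.R →+* 𝒪) hx) σ aq (q : 𝒪)
      (haq P hP σ hσ)
    rw [trace_baseChangeAlong126] at h1
    exact h1
  have key := nmSel p 𝒪 ρbar t Smin Sig q hq hqp hqS D D' ψ hψ hψρ x P hP σ hσ
    (by rw [htr]; exact hc) hfin
  rw [htr] at key
  rw [hx'eq]
  exact key

end Fermat.Agent.S59.H126
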