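import Mathlib

/-!
# S59 / NM-SEL (helper126): the adjoint action on trace-zero `2 × 2` matrices

For `F = !![a, b; c, d]` the endomorphism `X ↦ F X adj(F) - s X` of the trace-zero matrices
`X = !![n₀, n₁; n₂, -n₀]` has, in the coordinates `(n₀, n₁, n₂)`, the matrix `sl2Mat F s`, and

  `det (sl2Mat F s) = (det F - s) (s² - ((tr F)² - 2 det F) s + (det F)²)`.

For `det F = q`, `s = q²` this is `q³ (q - 1) ((tr F)² - (q + 1)²)`.
-/

set_option autoImplicit false
set_option linter.unusedSimpArgs false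

namespace Fermat.Agent.S59.H126

variable {A : Type*} [CommRing A]

/-- The matrix of `X ↦ F X adj(F) - s X` on trace-zero matrices. -/
def sl2Mat (F : Matrix (Fin 2) (Fin 2) A) (s : A) : Matrix (Fin 3) (Fin 3) A :=
  !![F 0 0 * F 1 1 + F 0 1 * F 1 0 - s, -(F 0 0 * F 1 0), F 0 1 * F 1 1;
     -(2 * F 0 0 * F 0 1), F 0 0 ^ 2 - s, -(F 0 1 ^ 2);
     2 * F 1 0 * F 1 1, -(F 1 0 ^ 2), F 1 1 ^ 2 - s]

theorem det_sl2Mat (F : Matrix (Fin 2) (Fin 2) A) (s : A) :
    (sl2Mat F s).det =
      (F.det - s) * (s ^ 2 - (F.trace ^ 2 - 2 * F.det) * s + F.det ^ 2) := by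
  rw [Matrix.det_fin_three, Matrix.det_fin_two, Matrix.trace_fin_two]
  simp only [sl2Mat, Matrix.of_apply, Matrix.cons_val', Matrix.cons_val_zero,
    Matrix.cons_val_one, Matrix.cons_val_two, Matrix.cons_val_fin_one, Matrix.empty_val',
    Matrix.head_cons, Matrix.tail_cons, Matrix.head_fin_const]
  ring

theorem det_sl2Mat_of_det (F : Matrix (Fin 2) (Fin 2) A) (q : A) (hdet : F.det = q) :
    (sl2Mat F (q ^ 2)).det = q ^ 3 * ((q - 1) * (F.trace ^ 2 - (q + 1) ^ 2)) := by
  rw [det_sl2Mat, hdet]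
  ring

theorem sl2Mat_map {B : Type*} [CommRing B] (f : A →+* B) (F : Matrix (Fin 2) (Fin 2) A)
    (s : A) : (sl2Mat F s).map f = sl2Mat (F.map f) (f s) := by
  ext i j
  fin_cases i <;> fin_cases j <;> simp [sl2Mat, map_ofNat]

/-- The relation: if `F N = q N F`, `tr N = 0`, `det F = q`, then the coordinate vector of `N`
is killed by `sl2Mat F (q²)`. -/
theorem sl2Mat_relation (F N : Matrix (Fin 2) (Fin 2) A) (q : A)
    (hFN : F * N = q • (N * F)) (htr : N 1 1 = - N 0 0) (hdet : F.det = q) (i : Fin 3) :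
    ∑ j, sl2Mat F (q ^ 2) i j * ![N 0 0, N 0 1, N 1 0] j = 0 := by
  have h00 := congrFun (congrFun hFN 0) 0
  have h01 := congrFun (congrFun hFN 0) 1
  have h10 := congrFun (congrFun hFN 1) 0
  have h11 := congrFun (congrFun hFN 1) 1
  simp only [Matrix.mul_apply, Fin.sum_univ_two, Matrix.smul_apply, smul_eq_mul,
    htr] at h00 h01 h10 h11
  rw [Matrix.det_fin_two] at hdet
  fin_cases i
  · simp only [sl2Mat, Fin.sum_univ_three, Matrix.of_apply, Matrix.cons_val', Matrix.cons_val_zero,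
      Matrix.cons_val_one, Matrix.cons_val_two, Matrix.cons_val_fin_one, Matrix.empty_val',
      Matrix.head_cons, Matrix.tail_cons, Matrix.head_fin_const, Fin.zero_eta, Fin.isValue]
    linear_combination F 1 1 * h00 - F 1 0 * h01 + q * N 0 0 * hdet
  · simp only [sl2Mat, Fin.sum_univ_three, Matrix.of_apply, Matrix.cons_val', Matrix.cons_val_zero,
      Matrix.cons_val_one, Matrix.cons_val_two, Matrix.cons_val_fin_one, Matrix.empty_val',
      Matrix.head_cons, Matrix.tail_cons, Matrix.head_fin_const, Fin.mk_one, Fin.isValue]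
    linear_combination -(F 0 1) * h00 + F 0 0 * h01 + q * N 0 1 * hdet
  · simp only [sl2Mat, Fin.sum_univ_three, Matrix.of_apply, Matrix.cons_val', Matrix.cons_val_zero,
      Matrix.cons_val_one, Matrix.cons_val_two, Matrix.cons_val_fin_one, Matrix.empty_val',
      Matrix.head_cons, Matrix.tail_cons, Matrix.head_fin_const, Fin.reduceFinMk, Fin.isValue]
    linear_combination F 1 1 * h10 - F 1 0 * h11 + q * N 1 0 * hdet

end Fermat.Agent.S59.H126
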