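import Fermat.Agent.S59.H126.SmithCard
import Fermat.Agent.S59.H126.Sl2

/-!
# S59 / NM-SEL (helper126): the counting step at a finite level (pure algebra)

`A` is an `𝒪`-algebra (`𝒪` a PID) with a square-zero ideal `Ibar` such that `A = 𝒪 + Ibar`.
`Φ` is a matrix over `A` congruent to `F₀ ∈ M₂(𝒪)` modulo `Ibar`, `N₀` a matrix with entries in
`Ibar`, `det (1 + N₀) = 1`, `det F₀ = q` and `Φ (1 + N₀) = (1 + N₀)^q Φ`.  Then the ideal of `A`
generated by multiples of the entries of `N₀` has at most `#(𝒪 ⧸ det (sl2Mat F₀ q²))` elements.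
-/

set_option autoImplicit false
set_option linter.unusedSectionVars false
set_option linter.style.haveILetI false

namespace Fermat.Agent.S59.H126

section Pow

variable {A : Type*} [CommRing A]

theorem one_add_pow_of_mul_self_eq_zero {n : Type*} [Fintype n] [DecidableEq n]
    (N : Matrix n n A) (hN : N * N = 0) (m : ℕ) : (1 + N) ^ m = 1 + m • N := by
  induction m with
  | zero => simp
  | succ m ih =>
    rw [pow_succ, ih, mul_add, mul_one, add_mul, one_mul, smul_mul_assoc, hN, smul_zero,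
      add_zero, succ_nsmul]
    abel

end Pow

section Count

variable {𝒪 : Type*} [CommRing 𝒪] [IsDomain 𝒪] [IsPrincipalIdealRing 𝒪]
variable {A : Type*} [CommRing A] [Algebra 𝒪 A]

theorem count_level (Ibar : Ideal A) (hsq : ∀ a ∈ Ibar, ∀ b ∈ Ibar, a * b = 0)
    (hdec : ∀ a : A, ∃ o : 𝒪, a - algebraMap 𝒪 A o ∈ Ibar)
    (Φ N₀ : Matrix (Fin 2) (Fin 2) A) (F₀ : Matrix (Fin 2) (Fin 2) 𝒪)
    (hΦ : ∀ i j, Φ i j - algebraMap 𝒪 A (F₀ i j) ∈ Ibar)
    (hN₀ : ∀ i j, N₀ i j ∈ Ibar)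
    (q : ℕ) (hrel : Φ * (1 + N₀) = (1 + N₀) ^ q * Φ)
    (hdetN : (1 + N₀).det = 1) (hdetF : F₀.det = (q : 𝒪))
    (G : Set A) (hG : ∀ g ∈ G, ∃ (m : ℕ) (i j : Fin 2), g = m • N₀ i j)
    (hc : (sl2Mat F₀ ((q : 𝒪) ^ 2)).det ≠ 0)
    [Finite (𝒪 ⧸ Ideal.span {(sl2Mat F₀ ((q : 𝒪) ^ 2)).det})]
    (s : Finset A) (hs : ∀ y ∈ s, y ∈ Ideal.span G) :
    s.card ≤ Nat.card (𝒪 ⧸ Ideal.span {(sl2Mat F₀ ((q : 𝒪) ^ 2)).det}) := by
  classical
  -- `N₀² = 0`
  have hNN : N₀ * N₀ = 0 := by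
    ext i j
    rw [Matrix.mul_apply, Matrix.zero_apply]
    exact Finset.sum_eq_zero fun k _ => hsq _ (hN₀ i k) _ (hN₀ k j)
  have hpow : (1 + N₀) ^ q = 1 + q • N₀ := one_add_pow_of_mul_self_eq_zero N₀ hNN q
  -- `Φ N₀ = q N₀ Φ`
  have h1 : Φ * N₀ = q • (N₀ * Φ) := by
    have h := hrel
    rw [hpow, mul_add, mul_one, add_mul, one_mul, smul_mul_assoc] at h
    exact add_left_cancel h
  set Fb : Matrix (Fin 2) (Fin 2) A := F₀.map (algebraMap 𝒪 A) with hFb
  have h2 : Φ * N₀ = Fb * N₀ := by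
    ext i j
    rw [Matrix.mul_apply, Matrix.mul_apply]
    refine Finset.sum_congr rfl fun k _ => ?_
    have := hsq _ (hΦ i k) _ (hN₀ k j)
    rw [hFb, Matrix.map_apply]
    linear_combination this
  have h3 : N₀ * Φ = N₀ * Fb := by
    ext i j
    rw [Matrix.mul_apply, Matrix.mul_apply]
    refine Finset.sum_congr rfl fun k _ => ?_
    have := hsq _ (hN₀ i k) _ (hΦ k j)
    rw [hFb, Matrix.map_apply]
    linear_combination this
  have h4 : Fb * N₀ = (q : A) • (N₀ * Fb) := by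
    rw [← h2, ← h3, h1, Nat.cast_smul_eq_nsmul]
  -- trace zero
  have htr : N₀ 1 1 = - N₀ 0 0 := by
    have h := hdetN
    rw [Matrix.det_fin_two] at h
    simp only [Matrix.add_apply, Matrix.one_apply_eq, Matrix.one_apply_ne, ne_eq, one_ne_zero,
      not_false_eq_true, zero_ne_one, zero_add, Fin.isValue] at h
    have e1 := hsq _ (hN₀ 0 0) _ (hN₀ 1 1)
    have e2 := hsq _ (hN₀ 0 1) _ (hN₀ 1 0)
    linear_combination h - e1 + e2
  have hdetFb : Fb.det = (q : A) := by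
    have : Fb.det = algebraMap 𝒪 A F₀.det := by
      rw [hFb, RingHom.map_det]
      rfl
    rw [this, hdetF, map_natCast]
  set n : Fin 3 → A := ![N₀ 0 0, N₀ 0 1, N₀ 1 0] with hn
  have hrel0 := sl2Mat_relation Fb N₀ (q : A) h4 htr hdetFb
  have hmap : sl2Mat Fb ((q : A) ^ 2) = (sl2Mat F₀ ((q : 𝒪) ^ 2)).map (algebraMap 𝒪 A) := by
    rw [sl2Mat_map, map_pow, map_natCast]
  have hrel' : ∀ i, ∑ j, (sl2Mat F₀ ((q : 𝒪) ^ 2)) i j • n j = 0 := by
    intro i
    have := hrel0 i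
    rw [hmap] at this
    simpa only [Matrix.map_apply, Algebra.smul_def] using this
  obtain ⟨hfin, hcard⟩ := card_span_le_of_relations (R := 𝒪) (sl2Mat F₀ ((q : 𝒪) ^ 2)) hc n hrel'
  set Y : Submodule 𝒪 A := Submodule.span 𝒪 (Set.range n) with hY
  have hnY : ∀ j, n j ∈ Y := fun j => Submodule.subset_span ⟨j, rfl⟩
  have hNY : ∀ i j, N₀ i j ∈ Y := by
    intro i j
    fin_cases i <;> fin_cases j
    · exact hnY 0
    · exact hnY 1
    · exact hnY 2
    · show N₀ 1 1 ∈ Y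
      rw [htr]
      exact Y.neg_mem (hnY 0)
  have hOI : ∀ (o : 𝒪) (y : A), y ∈ Ibar → o • y ∈ Ibar := by
    intro o y hy
    rw [Algebra.smul_def]
    exact Ibar.mul_mem_left _ hy
  have hmem : ∀ y ∈ Ideal.span G, y ∈ Y ∧ y ∈ Ibar := by
    intro y hy
    refine Submodule.span_induction (p := fun y _ => y ∈ Y ∧ y ∈ Ibar) ?_ ?_ ?_ ?_ hy
    · intro g hg
      obtain ⟨m, i, j, rfl⟩ := hG g hg
      exact ⟨Y.nsmul_mem (hNY i j) m, Ibar.toAddSubmonoid.nsmul_mem (hN₀ i j) m⟩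
    · exact ⟨Y.zero_mem, Ibar.zero_mem⟩
    · intro y z _ _ hy hz
      exact ⟨Y.add_mem hy.1 hz.1, Ibar.add_mem hy.2 hz.2⟩
    · intro a y _ hy
      obtain ⟨o, ho⟩ := hdec a
      have h0 := hsq _ ho _ hy.2
      have : a • y = o • y := by
        rw [smul_eq_mul, Algebra.smul_def]
        linear_combination h0
      rw [this]
      exact ⟨Y.smul_mem o hy.1, hOI o y hy.2⟩
  haveI := hfin
  let f : {y : A // y ∈ s} → Y := fun y => ⟨y.1, (hmem y.1 (hs y.1 y.2)).1⟩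
  have hf : Function.Injective f := by
    intro y z hyz
    exact Subtype.ext (congrArg (fun w : Y => (w : A)) hyz)
  have hle := Nat.card_le_card_of_injective f hf
  have hsc : Nat.card {y : A // y ∈ s} = s.card := by
    rw [Nat.card_eq_fintype_card]
    exact Fintype.card_coe s
  rw [hsc] at hle
  exact hle.trans hcard

end Count

end Fermat.Agent.S59.H126
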