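import Fermat.Agent.S59.H126.Univ

/-!
# S59 / NM-SEL (helper126): `ker (R_{Σ ∪ q} → R_Σ)` is the inertia ideal at `q`
-/

set_option autoImplicit false
set_option linter.unusedSectionVars false
set_option linter.style.haveILetI false

open IsLocalRing

namespace Fermat.Agent.S59.H126

open Fermat.Agent.S53 Fermat.Agent.S53.H113
open Fermat.Agent.S59.Arch (PType pCond sigmaCond)

section Kernel

variable {p : ℕ} [Fact p.Prime]
  {𝒪 : Type} [CommRing 𝒪] [IsDomain 𝒪] [IsDiscreteValuationRing 𝒪]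
  [IsAdicComplete (maximalIdeal 𝒪) 𝒪]
  {ρbar : ResidualGaloisRep (ResidueField 𝒪)} {t : PType} {Smin Sig : Finset ℕ} {q : ℕ}

theorem inertiaIdeal_le_ker
    (D : GaloisRep.DeformationRingData 𝒪 ρbar (sigmaCond 𝒪 p t Smin Sig))
    (D' : GaloisRep.DeformationRingData 𝒪 ρbar (sigmaCond 𝒪 p t Smin (insert q Sig)))
    (ψ : D'.R →ₐ[𝒪] D.R) (hψ : IsLocalHom (ψ : D'.R →+* D.R))
    (hψρ : (D'.ρ.baseChangeAlong (ψ : D'.R →+* D.R) hψ).IsEquiv D.ρ)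
    (hq : q.Prime) (hqS : q ∉ Sig)
    (P : ValuationSubring (AlgebraicClosure ℚ)) (hP : P.LiesOverPrime q)
    (r : GQ →* M2 D'.R) (hr : MatCont r) (he : D'.ρ.IsEquiv (toAdic r hr)) :
    inertiaIdeal r P ≤ RingHom.ker (ψ : D'.R →+* D.R) := by
  have hun : D.ρ.IsUnramifiedAt q := pCond_unram D.isOfType.1 q hq hqS
  have e1 := Fermat.Agent.S59.H659.baseChangeAlong_isEquiv_toAdic (ψ : D'.R →+* D.R) hψ D'.ρ
    r hr he
  have hun2 : (toAdic (mapRep (ψ : D'.R →+* D.R) r) (hr.map _ hψ)).IsUnramifiedAt q :=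
    Fermat.Agent.S56.H966.isUnramifiedAt_of_isEquiv (isEquiv_trans (isEquiv_symm hψρ) e1) hun
  rw [inertiaIdeal, Ideal.span_le]
  rintro _ ⟨τ, hτ, i, j, rfl⟩
  have h1 := (Fermat.Agent.S59.H659.toAdic_rho_eq_one_iff _ _ τ).mp (hun2 P hP τ hτ)
  rw [mapRep_eq_one_add] at h1
  have h2 : (r τ - 1).map (ψ : D'.R →+* D.R) = 0 := by
    have := add_left_cancel (a := (1 : M2 D.R)) (b := (r τ - 1).map (ψ : D'.R →+* D.R)) (c := 0)
      (by rw [h1, add_zero])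
    exact this
  have h3 := congrFun (congrFun h2 i) j
  rw [Matrix.map_apply, Matrix.zero_apply] at h3
  exact h3

/-- **`R_Σ = R_{Σ ∪ q} ⧸ (inertia at q)`**. -/
theorem ker_eq_inertiaIdeal
    (D : GaloisRep.DeformationRingData 𝒪 ρbar (sigmaCond 𝒪 p t Smin Sig))
    (D' : GaloisRep.DeformationRingData 𝒪 ρbar (sigmaCond 𝒪 p t Smin (insert q Sig)))
    (ψ : D'.R →ₐ[𝒪] D.R) (hψ : IsLocalHom (ψ : D'.R →+* D.R))
    (hψρ : (D'.ρ.baseChangeAlong (ψ : D'.R →+* D.R) hψ).IsEquiv D.ρ)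
    (hq : q.Prime) (hqS : q ∉ Sig)
    (P : ValuationSubring (AlgebraicClosure ℚ)) (hP : P.LiesOverPrime q)
    (r : GQ →* M2 D'.R) (hr : MatCont r) (he : D'.ρ.IsEquiv (toAdic r hr)) :
    Function.Surjective ψ ∧ RingHom.ker (ψ : D'.R →+* D.R) = inertiaIdeal r P := by
  classical
  set J : Ideal D'.R := inertiaIdeal r P with hJdef
  have hJle : J ≤ RingHom.ker (ψ : D'.R →+* D.R) :=
    inertiaIdeal_le_ker D D' ψ hψ hψρ hq hqS P hP r hr he
  have hJtop : J ≠ ⊤ := by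
    intro h
    have h1 : (1 : D'.R) ∈ RingHom.ker (ψ : D'.R →+* D.R) := hJle (h ▸ Submodule.mem_top)
    rw [RingHom.mem_ker, map_one] at h1
    exact one_ne_zero h1
  letI hlocB : IsLocalRing (D'.R ⧸ J) := Fermat.Agent.S53.H596.isLocalRing_quotient J hJtop
  haveI hcompB : IsAdicComplete (maximalIdeal (D'.R ⧸ J)) (D'.R ⧸ J) :=
    Fermat.Agent.S53.H596.isAdicComplete_quotient J hJtop
  haveI hlocalB : IsLocalHom (algebraMap 𝒪 (D'.R ⧸ J)) :=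
    Fermat.Agent.S53.H596.isLocalHom_algebraMap_quotient J hJtop
  have hresB : Function.Surjective (residue (D'.R ⧸ J) ∘ algebraMap 𝒪 (D'.R ⧸ J)) :=
    Fermat.Agent.S53.H596.residue_surjective_quotient D'.residue_surjective J hJtop
  have hloc : ∀ {A : Type} [CommRing A] [IsLocalRing A] [Algebra 𝒪 A]
      (f : A →ₐ[𝒪] (D'.R ⧸ J)), IsLocalHom (f : A →+* (D'.R ⧸ J)) := fun f =>
    isLocalHom_algHom hlocalB hresB f
  have hlocD : ∀ {A : Type} [CommRing A] [IsLocalRing A] [Algebra 𝒪 A]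
      (f : A →ₐ[𝒪] D.R), IsLocalHom (f : A →+* D.R) := fun f =>
    isLocalHom_algHom D.instIsLocalHom D.residue_surjective f
  let mkA : D'.R →ₐ[𝒪] (D'.R ⧸ J) := Ideal.Quotient.mkₐ 𝒪 J
  have hmkA : IsLocalHom (mkA : D'.R →+* D'.R ⧸ J) := hloc mkA
  have hmksurj : Function.Surjective (mkA : D'.R →+* D'.R ⧸ J) := Ideal.Quotient.mk_surjective
  have hmk0 : ∀ a : D'.R, mkA a = 0 ↔ a ∈ J := fun a => Ideal.Quotient.eq_zero_iff_mem
  set ρB : GaloisRepAdic (D'.R ⧸ J) := D'.ρ.baseChangeAlong (mkA : D'.R →+* D'.R ⧸ J) hmkA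
    with hρB
  have h𝒟' : sigmaCond 𝒪 p t Smin (insert q Sig) ρB :=
    sigmaCond_baseChangeAlong _ hmkA hmksurj D'.isOfType
  have eB := Fermat.Agent.S59.H659.baseChangeAlong_isEquiv_toAdic (mkA : D'.R →+* D'.R ⧸ J) hmkA
    D'.ρ r hr he
  have hunB : ρB.IsUnramifiedAt q := by
    apply Fermat.Agent.S56.H966.isUnramifiedAt_of_isEquiv (isEquiv_symm eB)
    intro P' hP' τ hτ
    rw [Fermat.Agent.S59.H659.toAdic_rho_eq_one_iff]
    refine Fermat.Agent.Lib.Cheb.H476.map_inertia_eq_one_of_liesOver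
      (mapRep (mkA : D'.R →+* D'.R ⧸ J) r) hq hP hP' ?_ τ hτ
    intro ι hι
    apply mapRep_eq_one_of_mem_ker
    intro i j
    rw [RingHom.mem_ker]
    exact (hmk0 _).mpr (entry_mem_inertiaIdeal r P hι i j)
  have h𝒟 : sigmaCond 𝒪 p t Smin Sig ρB := ⟨pCond_of_insert h𝒟'.1 hunB, h𝒟'.2⟩
  have hresρB := residual_isEquiv_baseChangeAlong ρbar D'.ρ D'.residual_isEquiv mkA hmkA
  obtain ⟨χ, ⟨hχloc, hχρ⟩, -⟩ := D.universal (D'.R ⧸ J) hresB ρB h𝒟 hresρB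
  obtain ⟨θ, -, hθuniq⟩ := D'.universal (D'.R ⧸ J) hresB ρB h𝒟' hresρB
  have h1 : mkA = θ := hθuniq mkA ⟨hmkA, isEquiv_refl _⟩
  have h2 : χ.comp ψ = θ := by
    refine hθuniq (χ.comp ψ) ⟨hloc _, ?_⟩
    have ea := baseChangeAlong_comp_isEquiv' (ψ : D'.R →+* D.R) hψ (χ : D.R →+* D'.R ⧸ J) hχloc
      ((χ.comp ψ : D'.R →ₐ[𝒪] D'.R ⧸ J) : D'.R →+* D'.R ⧸ J) (hloc _) rfl D'.ρ
    have eb := isEquiv_baseChangeAlong (χ : D.R →+* D'.R ⧸ J) hχloc hψρ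
    exact isEquiv_trans (isEquiv_symm ea) (isEquiv_trans eb hχρ)
  have hχψ : ∀ a : D'.R, χ (ψ a) = mkA a := by
    intro a
    have := congrArg (fun f : D'.R →ₐ[𝒪] D'.R ⧸ J => f a) (h2.trans h1.symm)
    exact this
  -- the kernel
  have hker : RingHom.ker (ψ : D'.R →+* D.R) = J := by
    refine le_antisymm (fun a ha => ?_) hJle
    rw [RingHom.mem_ker] at ha
    have h3 : ψ a = 0 := ha
    rw [← hmk0, ← hχψ, h3, map_zero]
  -- surjectivity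
  let ψbar : (D'.R ⧸ J) →ₐ[𝒪] D.R := Ideal.Quotient.liftₐ J ψ (fun a ha => hJle ha)
  have hψbar : ∀ a : D'.R, ψbar (mkA a) = ψ a := fun a => rfl
  obtain ⟨ι, -, hιuniq⟩ := D.universal D.R D.residue_surjective D.ρ D.isOfType D.residual_isEquiv
  have hidloc : IsLocalHom (RingHom.id D.R) := ⟨fun a ha => ha⟩
  have h3 : AlgHom.id 𝒪 D.R = ι := hιuniq _ ⟨hidloc, baseChangeAlong_id_isEquiv D.ρ hidloc⟩
  have h4 : ψbar.comp χ = ι := by
    refine hιuniq _ ⟨hlocD _, ?_⟩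
    have ea := baseChangeAlong_comp_isEquiv' (χ : D.R →+* D'.R ⧸ J) hχloc
      (ψbar : (D'.R ⧸ J) →+* D.R) (hlocD ψbar)
      ((ψbar.comp χ : D.R →ₐ[𝒪] D.R) : D.R →+* D.R) (hlocD _) rfl D.ρ
    have eb := isEquiv_baseChangeAlong (ψbar : (D'.R ⧸ J) →+* D.R) (hlocD ψbar) hχρ
    have ec := baseChangeAlong_comp_isEquiv' (mkA : D'.R →+* D'.R ⧸ J) hmkA
      (ψbar : (D'.R ⧸ J) →+* D.R) (hlocD ψbar) (ψ : D'.R →+* D.R) hψ
      (by ext a; rfl) D'.ρ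
    exact isEquiv_trans (isEquiv_symm ea) (isEquiv_trans eb (isEquiv_trans ec hψρ))
  have hsurj : Function.Surjective ψ := by
    intro b
    have h5 : ψbar (χ b) = b := by
      have := congrArg (fun f : D.R →ₐ[𝒪] D.R => f b) (h4.trans h3.symm)
      exact this
    obtain ⟨a, ha⟩ := hmksurj (χ b)
    refine ⟨a, ?_⟩
    rw [← hψbar, ← h5]
    exact congrArg ψbar ha
  exact ⟨hsurj, hker⟩

end Kernel

end Fermat.Agent.S59.H126
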