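import Fermat.Agent.S59.H126.Kernel

/-!
# S59 / cell NM, leaf NM-SEL (helper126): the Selmer step of the numerical criterion

`D`, `D'` universal deformation rings of type `Σ` and `Σ ∪ {q}` (`q ∉ Σ`, `q ≠ p`),
`ψ : D'.R → D.R` the classifying map of `D.ρ`, `x : D.R → 𝒪` an augmentation, `σ` a Frobenius
at `q`, `c = (q - 1) ((tr x(ρ(σ)))² - (q + 1)²) ≠ 0`.  Then

  `#Φ_{D'.R}(x ∘ ψ) ≤ #Φ_{D.R}(x) · #(𝒪/c)`        (`nmSel : NMSelStatement`).

No duality is used: `ker ψ` is the inertia ideal at `q` (`Kernel.lean`), and its image in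
`I'/I'²` is bounded by the tame relation (`Galois.lean`, `Count.lean`).
-/

set_option autoImplicit false
set_option linter.unusedSectionVars false
set_option linter.style.haveILetI false

open IsLocalRing

namespace Fermat.Agent.S59.H126

open Fermat.Agent.S53 Fermat.Agent.S53.H113
open Fermat.Agent.S59.Arch (PType pCond sigmaCond)

/-- **NM-SEL.** -/
def NMSelStatement : Prop :=
  ∀ (p : ℕ) [Fact p.Prime]
    (𝒪 : Type) [CommRing 𝒪] [IsDomain 𝒪] [IsDiscreteValuationRing 𝒪]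
    [IsAdicComplete (maximalIdeal 𝒪) 𝒪] [Finite (ResidueField 𝒪)]
    (ρbar : ResidualGaloisRep (ResidueField 𝒪)) (t : PType) (Smin Sig : Finset ℕ)
    (q : ℕ) (_hq : q.Prime) (_hqp : q ≠ p) (_hqS : q ∉ Sig)
    (D : GaloisRep.DeformationRingData 𝒪 ρbar (sigmaCond 𝒪 p t Smin Sig))
    (D' : GaloisRep.DeformationRingData 𝒪 ρbar (sigmaCond 𝒪 p t Smin (insert q Sig)))
    (ψ : D'.R →ₐ[𝒪] D.R) (hψ : IsLocalHom (ψ : D'.R →+* D.R))
    (_hψρ : (D'.ρ.baseChangeAlong (ψ : D'.R →+* D.R) hψ).IsEquiv D.ρ)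
    (x : D.R →ₐ[𝒪] 𝒪)
    (P : ValuationSubring (AlgebraicClosure ℚ)) (_hP : P.LiesOverPrime q)
    (σ : AlgebraicClosure ℚ ≃ₐ[ℚ] AlgebraicClosure ℚ) (_hσ : P.IsFrobeniusAt σ q)
    (_hc : ((q : 𝒪) - 1) * (x (D.ρ.trace σ) ^ 2 - ((q : 𝒪) + 1) ^ 2) ≠ 0)
    (_hfin : Finite (Fermat.Agent.S59.NC.Cot x)),
    Finite (Fermat.Agent.S59.NC.Cot (x.comp ψ)) ∧
      Nat.card (Fermat.Agent.S59.NC.Cot (x.comp ψ)) ≤ Nat.card (Fermat.Agent.S59.NC.Cot x) *
        Nat.card (𝒪 ⧸ Ideal.span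
          {((q : 𝒪) - 1) * (x (D.ρ.trace σ) ^ 2 - ((q : 𝒪) + 1) ^ 2)})

section Aux

theorem finite_quot_span_singleton {𝒪 : Type*} [CommRing 𝒪] [IsDomain 𝒪]
    [IsDiscreteValuationRing 𝒪] [Finite (ResidueField 𝒪)] {c : 𝒪} (hc : c ≠ 0) :
    Finite (𝒪 ⧸ Ideal.span {c}) := by
  obtain ⟨ϖ, hϖ⟩ := IsDiscreteValuationRing.exists_irreducible 𝒪
  obtain ⟨n, hn⟩ := IsDiscreteValuationRing.associated_pow_irreducible hc hϖ
  rw [Ideal.span_singleton_eq_span_singleton.mpr hn]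
  apply Nat.finite_of_card_ne_zero
  rw [Fermat.Agent.S55.H424.card_quot_span_pow ϖ
    (fun x hx => (mul_eq_zero.mp hx).resolve_left hϖ.ne_zero) n]
  apply pow_ne_zero
  rw [← hϖ.maximalIdeal_eq]
  haveI : Finite (𝒪 ⧸ maximalIdeal 𝒪) := ‹Finite (ResidueField 𝒪)›
  exact Nat.card_pos.ne'

theorem finite_and_card_le_of_forall_finset {α : Type*} (C : ℕ)
    (h : ∀ s : Finset α, s.card ≤ C) : Finite α ∧ Nat.card α ≤ C := by
  have hfin : Finite α := by
    by_contra hinf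
    rw [not_finite_iff_infinite] at hinf
    obtain ⟨s, hs⟩ := Infinite.exists_subset_card_eq α (C + 1)
    have := h s
    omega
  refine ⟨hfin, ?_⟩
  haveI := Fintype.ofFinite α
  rw [Nat.card_eq_fintype_card, ← Finset.card_univ]
  exact h Finset.univ

theorem isUnit_natCast_of_prime_ne {𝒪 : Type*} [CommRing 𝒪] [IsLocalRing 𝒪] {p q : ℕ}
    (hp : p.Prime) (hq : q.Prime) (hqp : q ≠ p) (hp𝒪 : (p : 𝒪) ∈ maximalIdeal 𝒪) :
    IsUnit (q : 𝒪) := by
  have hcop : IsCoprime (p : ℤ) (q : ℤ) :=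
    Nat.isCoprime_iff_coprime.mpr ((Nat.coprime_primes hp hq).mpr (Ne.symm hqp))
  obtain ⟨a, b, hab⟩ := hcop
  have h1 : (a : 𝒪) * p + (b : 𝒪) * q = 1 := by
    have := congrArg (Int.cast : ℤ → 𝒪) hab
    push_cast at this
    exact this
  have h2 : IsUnit ((b : 𝒪) * q) := by
    have h3 : (b : 𝒪) * q = 1 - a * p := by linear_combination h1
    rw [h3]
    exact IsLocalRing.isUnit_one_sub_self_of_mem_nonunits _ (Ideal.mul_mem_left _ _ hp𝒪)
  exact isUnit_of_mul_isUnit_right h2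

end Aux

/-- **NM-SEL** (Selmer step of the numerical criterion). -/
theorem nmSel : NMSelStatement := by
  intro p _ 𝒪 _ _ _ _ _ ρbar t Smin Sig q hq hqp hqS D D' ψ hψ hψρ x P hP σ hσ hc hfin
  classical
  have hpp : p.Prime := Fact.out
  obtain ⟨r, hr, he⟩ := exists_toAdic D'.ρ
  obtain ⟨hsurj, hker⟩ := ker_eq_inertiaIdeal D D' ψ hψ hψρ hq hqS P hP r hr he
  have hdet : (toAdic r hr).DetIsCyclotomic p :=
    Fermat.Agent.S56.H966.detIsCyclotomic_of_isEquiv he (pCond_det D'.isOfType.1)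
  have hp𝒪 : (p : 𝒪) ∈ maximalIdeal 𝒪 := by
    by_contra h
    have hu : IsUnit (p : 𝒪) := by
      by_contra hn
      exact h hn
    have hu' := hu.map (algebraMap 𝒪 D'.R)
    rw [map_natCast] at hu'
    exact hdet.1 hu'
  have hqu : IsUnit (q : 𝒪) := isUnit_natCast_of_prime_ne hpp hq hqp hp𝒪
  -- the trace
  have htr : (x.comp ψ) (r σ).trace = x (D.ρ.trace σ) := by
    have e1 := Fermat.Agent.S59.H659.baseChangeAlong_isEquiv_toAdic (ψ : D'.R →+* D.R) hψ D'.ρ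
      r hr he
    have h1 : D.ρ.trace σ = (mapRep (ψ : D'.R →+* D.R) r σ).trace := by
      rw [← trace_toAdic _ (hr.map _ hψ)]
      exact trace_eq_of_isEquiv (isEquiv_trans (isEquiv_symm hψρ) e1) σ
    rw [h1, Matrix.trace_fin_two, Matrix.trace_fin_two, mapRep_apply_apply, mapRep_apply_apply,
      AlgHom.comp_apply, map_add]
    rfl
  rw [← htr] at hc ⊢
  set c : 𝒪 := ((q : 𝒪) - 1) * ((x.comp ψ) (r σ).trace ^ 2 - ((q : 𝒪) + 1) ^ 2) with hcdef
  have hfinc : Finite (𝒪 ⧸ Ideal.span {c}) := finite_quot_span_singleton hc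
  set I' : Ideal D'.R := Fermat.Agent.S59.NC.augIdeal (x.comp ψ) with hI'
  set I : Ideal D.R := Fermat.Agent.S59.NC.augIdeal x with hI
  have hI'eq : I' = RingHom.ker ((x.comp ψ : D'.R →ₐ[𝒪] 𝒪) : D'.R →+* 𝒪) := rfl
  have hmemI' : ∀ a : D'.R, a ∈ I' ↔ x (ψ a) = 0 := fun a => RingHom.mem_ker
  have hmemI : ∀ b : D.R, b ∈ I ↔ x b = 0 := fun b => RingHom.mem_ker
  have hJI' : inertiaIdeal r P ≤ I' := by
    intro a ha
    rw [← hker, RingHom.mem_ker] at ha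
    rw [hmemI']
    have : ψ a = 0 := ha
    rw [this, map_zero]
  have hIent : ∀ τ ∈ P.inertiaSubgroupIn ℚ, ∀ i j,
      (r τ - 1) i j ∈ RingHom.ker ((x.comp ψ : D'.R →ₐ[𝒪] 𝒪) : D'.R →+* 𝒪) := by
    intro τ hτ i j
    rw [← hI'eq]
    exact hJI' (entry_mem_inertiaIdeal r P hτ i j)
  have hcount : ∀ s : Finset D'.R, (∀ y ∈ s, y ∈ inertiaIdeal r P) →
      (∀ y ∈ s, ∀ y' ∈ s, y - y' ∈ I' ^ 2 → y = y') → s.card ≤ Nat.card (𝒪 ⧸ Ideal.span {c}) :=
    fun s hs hinj => inertia_count (p := p) hq hqp hqu (x.comp ψ) r hr hdet P hP σ hσ hIent hc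
      hfinc s hs hinj
  -- the map on cotangent spaces
  have hle : I' ≤ I.comap ψ := by
    intro a ha
    rw [Ideal.mem_comap, hmemI]
    exact (hmemI' a).mp ha
  let μ : I'.Cotangent →ₗ[𝒪] I.Cotangent := Ideal.mapCotangent I' I ψ hle
  have hImap : I = I'.map (ψ : D'.R →+* D.R) := by
    have h1 : I' = I.comap (ψ : D'.R →+* D.R) := by
      ext a
      rw [hmemI', Ideal.mem_comap, hmemI]
      rfl
    rw [h1]
    exact (Ideal.map_comap_of_surjective (ψ : D'.R →+* D.R) hsurj I).symm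
  -- every element of the kernel comes from the inertia ideal
  have hlift : ∀ κ : LinearMap.ker μ, ∃ y : D'.R, y ∈ inertiaIdeal r P ∧
      ∃ hy : y ∈ I', I'.toCotangent ⟨y, hy⟩ = (κ : I'.Cotangent) := by
    intro κ
    obtain ⟨⟨a, ha⟩, hκ⟩ := Ideal.toCotangent_surjective I' (κ : I'.Cotangent)
    have h1 : μ (I'.toCotangent ⟨a, ha⟩) = 0 := by
      rw [hκ]
      exact κ.2
    rw [Ideal.mapCotangent_toCotangent, Ideal.toCotangent_eq_zero] at h1
    have h2 : ψ a ∈ (I' ^ 2).map (ψ : D'.R →+* D.R) := by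
      rw [Ideal.map_pow, ← hImap]
      exact h1
    obtain ⟨a₂, ha₂, ha₂'⟩ := (Ideal.mem_map_iff_of_surjective (ψ : D'.R →+* D.R) hsurj).mp h2
    have ha₂I : a₂ ∈ I' := Ideal.pow_le_self two_ne_zero ha₂
    have hy : a - a₂ ∈ inertiaIdeal r P := by
      rw [← hker, RingHom.mem_ker, map_sub, sub_eq_zero]
      exact ha₂'.symm
    refine ⟨a - a₂, hy, I'.sub_mem ha ha₂I, ?_⟩
    rw [← hκ, Ideal.toCotangent_eq]
    show a - a₂ - a ∈ I' ^ 2
    have : a - a₂ - a = -a₂ := by ring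
    rw [this]
    exact (I' ^ 2).neg_mem ha₂
  choose g hgJ hgI hgκ using hlift
  have hginj : ∀ κ κ' : LinearMap.ker μ, g κ - g κ' ∈ I' ^ 2 → κ = κ' := by
    intro κ κ' h
    apply Subtype.ext
    rw [← hgκ κ, ← hgκ κ', Ideal.toCotangent_eq]
    exact h
  have hK : ∀ s : Finset (LinearMap.ker μ), s.card ≤ Nat.card (𝒪 ⧸ Ideal.span {c}) := by
    intro s
    have hinj : Set.InjOn g (s : Set (LinearMap.ker μ)) := by
      intro κ _ κ' _ h
      apply hginj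
      rw [h, sub_self]
      exact (I' ^ 2).zero_mem
    rw [← Finset.card_image_of_injOn hinj]
    apply hcount
    · intro y hy
      obtain ⟨κ, -, rfl⟩ := Finset.mem_image.mp hy
      exact hgJ κ
    · intro y hy y' hy' h
      obtain ⟨κ, -, rfl⟩ := Finset.mem_image.mp hy
      obtain ⟨κ', -, rfl⟩ := Finset.mem_image.mp hy'
      rw [hginj κ κ' h]
  obtain ⟨hKfin, hKcard⟩ := finite_and_card_le_of_forall_finset _ hK
  -- the count
  haveI := hfin
  haveI : Finite I.Cotangent := hfin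
  have hrange : Nat.card (I'.Cotangent ⧸ LinearMap.ker μ) ≤ Nat.card I.Cotangent := by
    rw [Nat.card_congr (LinearMap.quotKerEquivRange μ).toEquiv]
    exact Nat.card_le_card_of_injective _ (Subtype.val_injective)
  haveI : Finite (I'.Cotangent ⧸ LinearMap.ker μ) :=
    Finite.of_equiv _ (LinearMap.quotKerEquivRange μ).toEquiv.symm
  have hmul := Submodule.card_eq_card_quotient_mul_card (LinearMap.ker μ)
  have hpos1 : 0 < Nat.card (LinearMap.ker μ) := Nat.card_pos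
  have hpos2 : 0 < Nat.card (I'.Cotangent ⧸ LinearMap.ker μ) := Nat.card_pos
  have hfin' : Finite I'.Cotangent := by
    apply Nat.finite_of_card_ne_zero
    rw [hmul]
    exact (Nat.mul_pos hpos1 hpos2).ne'
  refine ⟨hfin', ?_⟩
  show Nat.card I'.Cotangent ≤ Nat.card I.Cotangent * Nat.card (𝒪 ⧸ Ideal.span {c})
  rw [hmul, mul_comm]
  exact Nat.mul_le_mul hrange hKcard

end Fermat.Agent.S59.H126
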