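import Mathlib
import Fermat.Agent.S55.H424.QuotCard

/-!
# S59 / NM-SEL (helper126): cardinality of a module presented by a square matrix over a PID

* `card_quot_range_eq` : for an endomorphism `g` of `ι → R` (`R` a PID) with `det g ≠ 0`:
  `#((ι → R) ⧸ range g) = #(R ⧸ (det g))`   (Smith normal form).
* `card_span_le_of_relations` : if `n : ι → X` satisfies the relations `∑ j, B i j • n j = 0`
  for a square matrix `B` with `det B ≠ 0` and finite `R ⧸ (det B)`, then the span of the `n j`
  is finite of cardinality `≤ #(R ⧸ (det B))`.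
-/

set_option autoImplicit false
set_option linter.unusedSectionVars false
set_option linter.style.haveILetI false

namespace Fermat.Agent.S59.H126

open Module

section Smith

variable {R : Type*} [CommRing R] [IsDomain R] [IsPrincipalIdealRing R]
variable {ι : Type*} [Fintype ι] [DecidableEq ι]

theorem card_pi_quot_span (a : ι → R) (ha : ∀ i, a i ≠ 0) :
    Nat.card (∀ i, R ⧸ Ideal.span {a i}) = Nat.card (R ⧸ Ideal.span {∏ i, a i}) := by
  classical
  rw [Nat.card_pi]
  have key : ∀ s : Finset ι, ∏ i ∈ s, Nat.card (R ⧸ Ideal.span {a i}) =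
      Nat.card (R ⧸ Ideal.span {∏ i ∈ s, a i}) := by
    intro s
    induction s using Finset.induction_on with
    | empty =>
      rw [Finset.prod_empty, Finset.prod_empty]
      exact (Fermat.Agent.S55.H424.card_quot_span_of_isUnit isUnit_one).symm
    | insert i s hi ih =>
      rw [Finset.prod_insert hi, Finset.prod_insert hi, ih,
        Fermat.Agent.S55.H424.card_quot_span_mul (a i) _ (fun x hx =>
          (mul_eq_zero.mp hx).resolve_left (ha i))]
  exact key Finset.univ

theorem injective_of_det_ne_zero (g : (ι → R) →ₗ[R] (ι → R)) (hdet : LinearMap.det g ≠ 0) :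
    Function.Injective g := by
  rw [injective_iff_map_eq_zero]
  intro v hv
  have h1 : (LinearMap.toMatrix' g).mulVec v = 0 := by
    rw [LinearMap.toMatrix'_mulVec]
    exact hv
  have h2 : (LinearMap.toMatrix' g).det ≠ 0 := by
    rw [LinearMap.det_toMatrix']
    exact hdet
  exact Matrix.eq_zero_of_mulVec_eq_zero h2 h1

/-- `#((ι → R) ⧸ range g) = #(R ⧸ (det g))` for `det g ≠ 0` over a PID. -/
theorem card_quot_range_eq (g : (ι → R) →ₗ[R] (ι → R)) (hdet : LinearMap.det g ≠ 0) :
    Nat.card ((ι → R) ⧸ LinearMap.range g) = Nat.card (R ⧸ Ideal.span {LinearMap.det g}) := by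
  classical
  have hinj := injective_of_det_ne_zero g hdet
  have hrk : Module.finrank R (LinearMap.range g) = Module.finrank R (ι → R) :=
    LinearMap.finrank_range_of_inj hinj
  set b : Basis ι R (ι → R) := Pi.basisFun R ι with hb
  set bM := Submodule.smithNormalFormTopBasis b hrk with hbM
  set bN := Submodule.smithNormalFormBotBasis b hrk with hbN
  set a := Submodule.smithNormalFormCoeffs b hrk with ha
  have hsnf : ∀ i, (bN i : ι → R) = a i • bM i := Submodule.smithNormalFormBotBasis_def b hrk
  have hane : ∀ i, a i ≠ 0 := Submodule.smithNormalFormCoeffs_ne_zero b hrk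
  -- the quotient
  have e1 := Submodule.quotientEquivPiSpan (LinearMap.range g) b hrk
  rw [Nat.card_congr e1.toEquiv, card_pi_quot_span a hane]
  -- the determinant
  let d : (ι → R) →ₗ[R] (ι → R) := bM.constr R (fun i => a i • bM i)
  have hd : LinearMap.det d = ∏ i, a i := by
    rw [← LinearMap.det_toMatrix bM]
    have : LinearMap.toMatrix bM bM d = Matrix.diagonal a := by
      ext i j
      rw [LinearMap.toMatrix_apply, Basis.constr_basis, map_smul, Finsupp.smul_apply,
        Basis.repr_self, Finsupp.single_apply, Matrix.diagonal_apply, smul_eq_mul]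
      by_cases hij : i = j
      · subst hij; simp
      · rw [if_neg (Ne.symm hij), if_neg hij, mul_zero]
    rw [this, Matrix.det_diagonal]
  let e : (ι → R) ≃ₗ[R] (ι → R) :=
    (LinearEquiv.ofInjective g hinj).trans (bN.equiv bM (Equiv.refl ι))
  have hcomp : ∀ x, g x = d (e x) := by
    intro x
    have h1 : e x = (bN.equiv bM (Equiv.refl ι)) (LinearEquiv.ofInjective g hinj x) := rfl
    have h2 : ∀ y : LinearMap.range g, d ((bN.equiv bM (Equiv.refl ι)) y) = (y : ι → R) := by
      intro y
      have h3 : (d.comp ((bN.equiv bM (Equiv.refl ι)) : LinearMap.range g →ₗ[R] (ι → R))) =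
          (LinearMap.range g).subtype := by
        apply bN.ext
        intro i
        rw [LinearMap.comp_apply, LinearEquiv.coe_coe, Basis.equiv_apply, Equiv.refl_apply,
          Basis.constr_basis, Submodule.subtype_apply, hsnf]
      exact congrArg (fun f => f y) h3
    rw [h1, h2]
    rfl
  have hassoc : Associated (LinearMap.det g) (LinearMap.det d) :=
    LinearMap.associated_det_of_eq_comp e g d hcomp
  rw [hd] at hassoc
  rw [Ideal.span_singleton_eq_span_singleton.mpr hassoc]

/-- A module generated by `n j` (`j : ι`) subject to the relations given by the rows of a square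
matrix `B` with `det B ≠ 0` has at most `#(R ⧸ (det B))` elements. -/
theorem card_span_le_of_relations (B : Matrix ι ι R) (hdet : B.det ≠ 0)
    [Finite (R ⧸ Ideal.span {B.det})]
    {X : Type*} [AddCommGroup X] [Module R X] (n : ι → X)
    (hrel : ∀ i, ∑ j, B i j • n j = 0) :
    Finite (Submodule.span R (Set.range n)) ∧
      Nat.card (Submodule.span R (Set.range n)) ≤ Nat.card (R ⧸ Ideal.span {B.det}) := by
  classical
  let F : (ι → R) →ₗ[R] X := Fintype.linearCombination R n
  have hF : LinearMap.range F = Submodule.span R (Set.range n) :=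
    Fintype.range_linearCombination R n
  let g : (ι → R) →ₗ[R] (ι → R) := Matrix.toLin' B.transpose
  have hg : LinearMap.det g = B.det := by
    rw [LinearMap.det_toLin', Matrix.det_transpose]
  have hker : LinearMap.range g ≤ LinearMap.ker F := by
    rintro _ ⟨v, rfl⟩
    rw [LinearMap.mem_ker]
    show Fintype.linearCombination R n (Matrix.toLin' B.transpose v) = 0
    rw [Fintype.linearCombination_apply, Matrix.toLin'_apply]
    have h1 : ∀ j, (B.transpose.mulVec v) j • n j = ∑ i, v i • (B i j • n j) := by
      intro j
      rw [Matrix.mulVec, dotProduct, Finset.sum_smul]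
      refine Finset.sum_congr rfl fun i _ => ?_
      rw [Matrix.transpose_apply, mul_comm, mul_smul]
    rw [Finset.sum_congr rfl fun j _ => h1 j, Finset.sum_comm]
    refine Finset.sum_eq_zero fun i _ => ?_
    rw [← Finset.smul_sum, hrel i, smul_zero]
  have hcard : Nat.card ((ι → R) ⧸ LinearMap.range g) = Nat.card (R ⧸ Ideal.span {B.det}) := by
    rw [card_quot_range_eq g (by rw [hg]; exact hdet), hg]
  have hpos : 0 < Nat.card (R ⧸ Ideal.span {B.det}) := Nat.card_pos
  haveI hfin : Finite ((ι → R) ⧸ LinearMap.range g) :=
    Nat.finite_of_card_ne_zero (by rw [hcard]; exact hpos.ne')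
  -- the surjection
  let G : ((ι → R) ⧸ LinearMap.range g) →ₗ[R] X := (LinearMap.range g).liftQ F hker
  have hG : LinearMap.range G = Submodule.span R (Set.range n) := by
    rw [← hF]
    exact Submodule.range_liftQ _ _ _
  have hsurj : Function.Surjective (G.rangeRestrict) := LinearMap.surjective_rangeRestrict G
  haveI : Finite (LinearMap.range G) := Finite.of_surjective _ hsurj
  have hle : Nat.card (LinearMap.range G) ≤ Nat.card ((ι → R) ⧸ LinearMap.range g) :=
    Nat.card_le_card_of_surjective _ hsurj
  rw [hG] at hle
  refine ⟨?_, hle.trans hcard.le⟩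
  rw [← hG]
  infer_instance

end Smith

end Fermat.Agent.S59.H126
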