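import Fermat.Agent.S59.H126.Galois
import Fermat.Agent.S59.Arch.SpecRT
import Fermat.Agent.S53.H596.PowerSeriesCNL
import Fermat.Agent.S53.GlueInj
import Fermat.Agent.S59.H870.OrdBridge
import Fermat.Agent.Lib.Cheb.H476.FrobConj

/-!
# S59 / NM-SEL (helper126): `R_Σ = R_{Σ ∪ q} ⧸ (inertia ideal at q)`

`D`, `D'` universal deformation rings of type `Σ`, `Σ ∪ {q}` (`q ∉ Σ`), `ψ : D'.R → D.R` the
classifying map of `D.ρ`.  Then `ψ` is surjective and its kernel is the inertia ideal at `q`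
of any matrix model of `D'.ρ` (`ker_eq_inertiaIdeal`).
-/

set_option autoImplicit false
set_option linter.unusedSectionVars false
set_option linter.style.haveILetI false

open IsLocalRing

namespace Fermat.Agent.S59.H126

open Fermat.Agent.S53
open Fermat.Agent.S59.Arch (PType pCond sigmaCond)

section Cond

variable {𝒪 : Type} [CommRing 𝒪]
  {A : Type} [CommRing A] [IsLocalRing A] [Algebra 𝒪 A]
  {B : Type} [CommRing B] [IsLocalRing B] [Algebra 𝒪 B]
  {p : ℕ} {t : PType} {Smin Sig : Finset ℕ}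

theorem pCond_det {ρ : GaloisRepAdic A} (h : pCond 𝒪 p t Sig ρ) : ρ.DetIsCyclotomic p := by
  cases t <;> exact h.1

theorem pCond_unram {ρ : GaloisRepAdic A} (h : pCond 𝒪 p t Sig ρ) :
    ∀ q : ℕ, q.Prime → q ∉ Sig → ρ.IsUnramifiedAt q := by
  cases t <;> exact h.2.2

theorem pCond_of_insert {ρ : GaloisRepAdic A} {q : ℕ} (h : pCond 𝒪 p t (insert q Sig) ρ)
    (hq : ρ.IsUnramifiedAt q) : pCond 𝒪 p t Sig ρ := by
  have hun : ∀ r : ℕ, r.Prime → r ∉ Sig → ρ.IsUnramifiedAt r := by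
    intro r hr hrS
    by_cases hrq : r = q
    · rw [hrq]; exact hq
    · exact pCond_unram h r hr (by
        rw [Finset.mem_insert]
        exact fun h' => h'.elim hrq hrS)
  cases t
  · exact ⟨h.1, h.2.1, hun⟩
  · exact ⟨h.1, h.2.1, hun⟩
  · exact ⟨h.1, h.2.1, hun⟩

theorem pCond_baseChangeAlong (f : A →+* B) (hf : IsLocalHom f) (hsurj : Function.Surjective f)
    {ρ : GaloisRepAdic A} (h : pCond 𝒪 p t Sig ρ) :
    pCond 𝒪 p t Sig (ρ.baseChangeAlong f hf) := by
  cases t
  · exact Fermat.Agent.S56.H966.flatCondition_baseChangeAlong_of_surjective 𝒪 f hf hsurj h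
  · exact Fermat.Agent.S56.H966.strictOrdinaryCondition_baseChangeAlong 𝒪 f hf h
  · exact ⟨Fermat.Agent.S56.H966.detIsCyclotomic_baseChangeAlong f hf h.1,
      Fermat.Agent.S59.H870.isOrdinaryAt_baseChangeAlong f hf h.2.1,
      fun q hq hqS => Fermat.Agent.S56.H966.isUnramifiedAt_baseChangeAlong f hf (h.2.2 q hq hqS)⟩

theorem sigmaCond_baseChangeAlong (f : A →+* B) (hf : IsLocalHom f)
    (hsurj : Function.Surjective f) {ρ : GaloisRepAdic A} (h : sigmaCond 𝒪 p t Smin Sig ρ) :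
    sigmaCond 𝒪 p t Smin Sig (ρ.baseChangeAlong f hf) :=
  ⟨pCond_baseChangeAlong f hf hsurj h.1, fun q hq hqp hqne =>
    Fermat.Agent.S56.H966.isUnipotentOnInertiaAt_baseChangeAlong f hf (h.2 q hq hqp hqne)⟩

end Cond

section Residual

variable {𝒪 : Type} [CommRing 𝒪] [IsLocalRing 𝒪]
  {A : Type} [CommRing A] [IsLocalRing A] [Algebra 𝒪 A] [IsLocalHom (algebraMap 𝒪 A)]
  {B : Type} [CommRing B] [IsLocalRing B] [Algebra 𝒪 B] [IsLocalHom (algebraMap 𝒪 B)]

/-- The residual representation of a base change along a local `𝒪`-algebra homomorphism. -/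
theorem residual_isEquiv_baseChangeAlong (ρbar : ResidualGaloisRep (ResidueField 𝒪))
    (ρA : GaloisRepAdic A)
    (hres : ρA.residual.IsEquiv (ρbar.baseChangeAlong (ResidueField.map (algebraMap 𝒪 A))))
    (f : A →ₐ[𝒪] B) (hf : IsLocalHom (f : A →+* B)) :
    (ρA.baseChangeAlong (f : A →+* B) hf).residual.IsEquiv
      (ρbar.baseChangeAlong (ResidueField.map (algebraMap 𝒪 B))) := by
  obtain ⟨rb, hrb, hρbar⟩ := exists_toRes ρbar
  obtain ⟨r, hr, hlift, he⟩ := exists_lift_of_residual_isEquiv ρbar rb hrb hρbar ρA hres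
  obtain ⟨e1⟩ := Fermat.Agent.S59.H659.baseChangeAlong_isEquiv_toAdic (f : A →+* B) hf ρA r hr he
  have hlift' : ∀ σ, (mapRep (f : A →+* B) r σ).map (residue B) =
      (rb σ).map (ResidueField.map (algebraMap 𝒪 B)) := by
    intro σ
    ext i j
    have h1 := congrFun (congrFun (hlift σ) i) j
    simp only [Matrix.map_apply] at h1
    simp only [Matrix.map_apply, mapRep_apply]
    haveI := hf
    have h2 : residue B ((f : A →+* B) (r σ i j)) =
        ResidueField.map (f : A →+* B) (residue A (r σ i j)) :=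
      (ResidueField.map_residue (f : A →+* B) (r σ i j)).symm
    rw [h2, h1]
    have h3 : (algebraMap 𝒪 B) = (f : A →+* B).comp (algebraMap 𝒪 A) := by
      ext o
      exact (f.commutes o).symm
    have h4 : ResidueField.map (algebraMap 𝒪 B) =
        (ResidueField.map (f : A →+* B)).comp (ResidueField.map (algebraMap 𝒪 A)) := by
      ext z
      obtain ⟨o, rfl⟩ := IsLocalRing.residue_surjective z
      simp only [RingHom.comp_apply, ResidueField.map_residue]
      rw [h3]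
      rfl
    rw [h4]
    rfl
  obtain ⟨e2⟩ := residual_isEquiv_of_lift ρbar rb hrb hρbar (mapRep (f : A →+* B) r)
    (hr.map _ hf) hlift'
  exact ⟨e1.residual.trans e2⟩

end Residual

section Trace

variable {A : Type} [CommRing A] [IsLocalRing A]

theorem trace_eq_of_isEquiv {ρ₁ ρ₂ : GaloisRepAdic A} (h : ρ₁.IsEquiv ρ₂) (σ : GQ) :
    ρ₁.trace σ = ρ₂.trace σ := by
  obtain ⟨e⟩ := h
  have h1 : ρ₂.ρ σ = e.toLinearEquiv.conj (ρ₁.ρ σ) := by
    apply LinearMap.ext
    intro v
    rw [LinearEquiv.conj_apply, LinearMap.comp_apply, LinearMap.comp_apply, LinearEquiv.coe_coe,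
      LinearEquiv.coe_coe, e.map_apply, LinearEquiv.apply_symm_apply]
  show LinearMap.trace A ρ₁.V (ρ₁.ρ σ) = LinearMap.trace A ρ₂.V (ρ₂.ρ σ)
  rw [h1, LinearMap.trace_conj']

theorem trace_toAdic (r : GQ →* M2 A) (hr : MatCont r) (σ : GQ) :
    (toAdic r hr).trace σ = (r σ).trace := by
  show LinearMap.trace A (Fin 2 → A) (Matrix.toLin' (r σ)) = (r σ).trace
  rw [LinearMap.trace_eq_matrix_trace A (Pi.basisFun A (Fin 2)), LinearMap.toMatrix_eq_toMatrix',
    LinearMap.toMatrix'_toLin']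

theorem baseChangeAlong_id_isEquiv (ρ : GaloisRepAdic A)
    (h : IsLocalHom (RingHom.id A)) : (ρ.baseChangeAlong (RingHom.id A) h).IsEquiv ρ := by
  obtain ⟨r, hr, he⟩ := exists_toAdic ρ
  have e1 := Fermat.Agent.S59.H659.baseChangeAlong_isEquiv_toAdic (RingHom.id A) h ρ r hr he
  have e2 : (toAdic (mapRep (RingHom.id A) r) (hr.map _ h)).IsEquiv (toAdic r hr) := by
    rw [toAdic_isEquiv_iff]
    refine ⟨1, fun σ => ?_⟩
    rw [mapRep_id, Units.val_one, one_mul, mul_one]
  exact Fermat.Agent.S53.H113.isEquiv_trans e1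
    (Fermat.Agent.S53.H113.isEquiv_trans e2 (Fermat.Agent.S53.H113.isEquiv_symm he))

end Trace

end Fermat.Agent.S59.H126
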